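import Fermat.Agent.Liouvillian.Series
import Mathlib.FieldTheory.Differential.Basic
import Mathlib.FieldTheory.IsAlgClosed.AlgebraicClosure
import Mathlib.RingTheory.Algebraic.Integral

/-!
# Derivations and Riccati equations on algebraic extensions
-/

set_option autoImplicit false

noncomputable section

open Polynomial Differential
open scoped Differential

namespace Fermat.Agent.Liouvillian

universe u v w

section

variable {F : Type u} [Field F] [Differential F] [CharZero F]

/-- The derivative of an algebraic element, from its minimal polynomial. -/
def algDeriv {A : Type v} [Field A] [Algebra F A] (a : A) : A :=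
  -(aeval a (mapCoeffs (minpoly F a))) / aeval a (derivative (minpoly F a))

theorem aeval_derivative_minpoly_ne_zero {A : Type v} [Field A] [Algebra F A] {a : A}
    (ha : IsIntegral F a) : aeval a (derivative (minpoly F a)) ≠ 0 :=
  (minpoly.irreducible ha).separable.aeval_derivative_ne_zero (minpoly.aeval F a)

/-- In a differential extension the derivative is `algDeriv`. -/
theorem deriv_eq_algDeriv {A : Type v} [Field A] [Differential A] [Algebra F A]
    [DifferentialAlgebra F A] {a : A} (ha : IsAlgebraic F a) : a′ = algDeriv (F := F) a := by
  have h := deriv_aeval_eq a (minpoly F a)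
  rw [minpoly.aeval, map_zero] at h
  rw [algDeriv, eq_div_iff (aeval_derivative_minpoly_ne_zero ha.isIntegral)]
  linear_combination -h

theorem map_algDeriv {A : Type v} {B : Type w} [Field A] [Field B] [Algebra F A] [Algebra F B]
    (φ : A →ₐ[F] B) (a : A) : φ (algDeriv (F := F) a) = algDeriv (F := F) (φ a) := by
  rw [algDeriv, algDeriv, map_div₀, map_neg, ← aeval_algHom_apply, ← aeval_algHom_apply,
    minpoly.algHom_eq φ φ.toRingHom.injective]

theorem algDeriv_finite {A : Type v} [Field A] [Algebra F A] (B : IntermediateField F A)
    [FiniteDimensional F B] (b : B) : ((b′ : B) : A) = algDeriv (F := F) (b : A) := by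
  rw [deriv_eq_algDeriv (F := F) (Algebra.IsAlgebraic.isAlgebraic b)]
  exact map_algDeriv B.val b

variable (F) in
/-- The derivation of an algebraic closure. -/
def closureDifferential : Differential (AlgebraicClosure F) :=
  differentialOfLeibniz (algDeriv (F := F))
    (fun a b => by
      have hi : ∀ c : AlgebraicClosure F, IsIntegral F c := Algebra.IsIntegral.isIntegral
      have : FiniteDimensional F (IntermediateField.adjoin F {a, b}) :=
        IntermediateField.finiteDimensional_adjoin fun c _ => hi c
      set B := IntermediateField.adjoin F {a, b}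
      let a' : B := ⟨a, IntermediateField.subset_adjoin F _ (Set.mem_insert _ _)⟩
      let b' : B := ⟨b, IntermediateField.subset_adjoin F _ (Set.mem_insert_of_mem _ rfl)⟩
      show algDeriv (F := F) ((a' + b' : B) : AlgebraicClosure F) =
        algDeriv (F := F) (a' : AlgebraicClosure F) + algDeriv (F := F) (b' : AlgebraicClosure F)
      rw [← algDeriv_finite, ← algDeriv_finite, ← algDeriv_finite, map_add]
      rfl)
    (fun a b => by
      have hi : ∀ c : AlgebraicClosure F, IsIntegral F c := Algebra.IsIntegral.isIntegral
      have : FiniteDimensional F (IntermediateField.adjoin F {a, b}) :=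
        IntermediateField.finiteDimensional_adjoin fun c _ => hi c
      set B := IntermediateField.adjoin F {a, b}
      let a' : B := ⟨a, IntermediateField.subset_adjoin F _ (Set.mem_insert _ _)⟩
      let b' : B := ⟨b, IntermediateField.subset_adjoin F _ (Set.mem_insert_of_mem _ rfl)⟩
      show algDeriv (F := F) ((a' * b' : B) : AlgebraicClosure F) =
        (a' : AlgebraicClosure F) * algDeriv (F := F) (b' : AlgebraicClosure F) +
          (b' : AlgebraicClosure F) * algDeriv (F := F) (a' : AlgebraicClosure F)
      rw [← algDeriv_finite, ← algDeriv_finite, ← algDeriv_finite, Derivation.leibniz,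
        smul_eq_mul, smul_eq_mul]
      rfl)

variable (F) in
theorem closureDifferentialAlgebra :
    letI := closureDifferential F
    DifferentialAlgebra F (AlgebraicClosure F) := by
  letI := closureDifferential F
  refine ⟨fun c => ?_⟩
  show algDeriv (F := F) (algebraMap F (AlgebraicClosure F) c) = _
  rw [algDeriv, minpoly.eq_X_sub_C]
  simp [mapCoeffs_C]

end

/-- `v' + v² = r` has a solution algebraic over `F`. -/
def HasRiccatiSolution (F : Type u) [Field F] [Differential F] (r : F) : Prop :=
  ∃ (L : Type u) (_ : Field L) (_ : Differential L) (_ : Algebra F L)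
    (_ : DifferentialAlgebra F L) (v : L), IsAlgebraic F v ∧ v′ + v ^ 2 = algebraMap F L r

/-- **All roots of the minimal polynomial of a solution are solutions.** -/
theorem riccati_of_root {G : Type u} [Field G] [Differential G] [CharZero G] {L : Type v} [Field L]
    [Differential L] [Algebra G L] [DifferentialAlgebra G L] {P : Type w} [Field P]
    [Differential P] [Algebra G P] [DifferentialAlgebra G P] {r : G} {v : L}
    (hv : IsAlgebraic G v) (h : v′ + v ^ 2 = algebraMap G L r) {U : P}
    (hU : aeval U (minpoly G v) = 0) : U′ + U ^ 2 = algebraMap G P r := by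
  set p := minpoly G v
  have hp : p = minpoly G U :=
    minpoly.eq_of_irreducible_of_monic (minpoly.irreducible hv.isIntegral) hU
      (minpoly.monic hv.isIntegral)
  set R := -(mapCoeffs p) + derivative p * (X ^ 2 - Polynomial.C r)
  have hR : aeval v R = 0 := by
    have h1 := deriv_aeval_eq v p
    rw [minpoly.aeval, map_zero] at h1
    simp only [R, map_add, map_neg, map_mul, map_sub, map_pow, aeval_X, aeval_C]
    linear_combination h1 + aeval v (derivative p) * h
  obtain ⟨S, hS⟩ := minpoly.dvd G v hR
  have hRU : aeval U R = 0 := by rw [hS, map_mul, hU, zero_mul]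
  have h2 := deriv_aeval_eq U p
  rw [hU, map_zero] at h2
  simp only [R, map_add, map_neg, map_mul, map_sub, map_pow, aeval_X, aeval_C] at hRU
  have hne : aeval U (derivative p) ≠ 0 :=
    (minpoly.irreducible hv.isIntegral).separable.aeval_derivative_ne_zero hU
  have h3 : aeval U (derivative p) * (U′ + U ^ 2 - algebraMap G P r) = 0 := by
    linear_combination hRU - h2
  exact sub_eq_zero.1 ((mul_eq_zero.1 h3).resolve_left hne)

end Fermat.Agent.Liouvillian
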