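import Fermat.Agent.Liouvillian.Algebraic
import Fermat.Agent.ElementaryIntegration.Exponential
import Fermat.Agent.NewtonPuiseux.PuiseuxField

/-!
# Liouvillian towers and Riccati equations
-/

set_option autoImplicit false

noncomputable section

open Polynomial Differential Fermat.Agent.NewtonPuiseux Fermat.Agent.AxSchanuel
  Fermat.Agent.ElementaryIntegration
open scoped Differential RatFunc

namespace Fermat.Agent.Liouvillian

universe u v

/-- A tower of algebraic elements, integrals and exponentials of integrals. -/
def IsLiouvillianTower (F : Type u) {M : Type v} [Field F] [Field M] [Differential M] [Algebra F M]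
    {N : ℕ} (s : Fin N → M) : Prop :=
  ∀ j, IsAlgebraic (IntermediateField.adjoin F (s '' Set.Iio j)) (s j) ∨
    (s j)′ ∈ IntermediateField.adjoin F (s '' Set.Iio j) ∨
      ∃ e ∈ IntermediateField.adjoin F (s '' Set.Iio j), (s j)′ = e * s j

/-- A differential field generated by a Liouvillian tower. -/
def IsLiouvillianExtension (F : Type u) (K : Type v) [Field F] [Field K] [Differential K]
    [Algebra F K] : Prop :=
  ∃ (N : ℕ) (s : Fin N → K), IntermediateField.adjoin F (Set.range s) = ⊤ ∧
    IsLiouvillianTower F s

theorem exists_series_hom {F : Type u} [Field F] {A : Type*} [Field A] (σ : F →+* A) {G : Type v}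
    [Field G] [Algebra F G] {s : G} (hs : Transcendental F s)
    (hgen : IntermediateField.adjoin F {s} = ⊤) :
    ∃ g : G →+* LaurentSeries A, g s = HahnSeries.single 1 1 ∧
      ∀ c, g (algebraMap F G c) = HahnSeries.C (σ c) := by
  let φ : F[X] →+* LaurentSeries A :=
    (algebraMap A[X] (LaurentSeries A)).comp (Polynomial.mapRingHom σ)
  have hinj : Function.Injective φ := by
    intro a b hab
    have h1 : (algebraMap (RatFunc A) (LaurentSeries A)) (algebraMap A[X] (RatFunc A) (a.map σ)) =
        algebraMap (RatFunc A) (LaurentSeries A) (algebraMap A[X] (RatFunc A) (b.map σ)) := by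
      rw [← IsScalarTower.algebraMap_apply, ← IsScalarTower.algebraMap_apply]
      exact hab
    exact Polynomial.map_injective σ σ.injective
      (IsFractionRing.injective A[X] (RatFunc A) ((algebraMap _ _).injective h1))
  let ψ : RatFunc F →+* LaurentSeries A :=
    RatFunc.liftRingHom φ (nonZeroDivisors_le_comap_nonZeroDivisors_of_injective φ hinj)
  let e := ((RatFunc.algEquivOfTranscendental s hs).trans (IntermediateField.equivOfEq hgen)).trans
    IntermediateField.topEquiv
  refine ⟨ψ.comp e.symm.toAlgHom.toRingHom, ?_, fun c => ?_⟩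
  · have h2 : e.symm s = RatFunc.X := by
      rw [AlgEquiv.symm_apply_eq, ← RatFunc.algebraMap_X]
      simp only [e, AlgEquiv.trans_apply, RatFunc.algEquivOfTranscendental_algebraMap]
      simp
    show ψ (e.symm s) = _
    rw [h2, ← RatFunc.algebraMap_X]
    simp [ψ, φ]
  · show ψ (e.symm (algebraMap F G c)) = _
    rw [e.symm.commutes, IsScalarTower.algebraMap_apply F F[X] (RatFunc F)]
    simp [ψ, φ, Polynomial.algebraMap_eq]

/-- A homomorphism compatible on generators is compatible with the derivations. -/
theorem map_deriv_of_generated {F : Type u} [Field F] [Differential F] {G : Type v} [Field G]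
    [Differential G] [Algebra F G] [DifferentialAlgebra F G] {P : Type*} [Field P]
    [Differential P] (g : G →+* P) {s : G} (hgen : IntermediateField.adjoin F {s} = ⊤)
    (hF : ∀ c : F, g (algebraMap F G (c′)) = (g (algebraMap F G c))′) (hs : g (s′) = (g s)′)
    (a : G) : g (a′) = (g a)′ := by
  have ha : a ∈ IntermediateField.adjoin F {s} := hgen ▸ IntermediateField.mem_top
  induction ha using IntermediateField.adjoin_induction with
  | mem w hw => rw [Set.mem_singleton_iff.1 hw]; exact hs
  | algebraMap c => rw [deriv_algebraMap]; exact hF c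
  | add a b _ _ ha hb => simp only [map_add, ha, hb]
  | inv a ha' ha =>
    rw [Derivation.leibniz_inv, map_inv₀, Derivation.leibniz_inv, smul_eq_mul, smul_eq_mul,
      map_mul, map_neg, map_pow, map_inv₀, ha]
  | mul a b ha' hb' ha hb =>
    simp only [Derivation.leibniz, smul_eq_mul, map_add, map_mul, ha, hb]

section

variable {F : Type u} [Field F] [Differential F] [CharZero F]

/-- An algebraic solution may be taken in an algebraic closure. -/
theorem hasRiccatiSolution_of_isAlgebraic {L : Type v} [Field L] [Differential L] [Algebra F L]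
    [DifferentialAlgebra F L] {r : F} {w : L} (hw : IsAlgebraic F w)
    (h : w′ + w ^ 2 = algebraMap F L r) : HasRiccatiSolution F r := by
  letI := closureDifferential F
  have := closureDifferentialAlgebra F
  obtain ⟨U, hU⟩ := IsAlgClosed.exists_aeval_eq_zero (AlgebraicClosure F) (minpoly F w)
    (minpoly.degree_pos hw.isIntegral).ne'
  exact ⟨AlgebraicClosure F, inferInstance, inferInstance, inferInstance, inferInstance, U,
    Algebra.IsAlgebraic.isAlgebraic U, riccati_of_root hw h hU⟩

variable {G : Type v} [Field G] [Differential G] [Algebra F G] [DifferentialAlgebra F G]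

theorem hasRiccatiSolution_of_algebraic [Algebra.IsAlgebraic F G] {r : F}
    (h : HasRiccatiSolution G (algebraMap F G r)) : HasRiccatiSolution F r := by
  obtain ⟨L, _, _, _, _, w, hw, h⟩ := h
  letI : Algebra F L := ((algebraMap G L).comp (algebraMap F G)).toAlgebra
  have : IsScalarTower F G L := IsScalarTower.of_algebraMap_eq fun _ => rfl
  have : DifferentialAlgebra F L := ⟨fun a => by
    show (algebraMap G L (algebraMap F G a))′ = algebraMap G L (algebraMap F G (a′))
    rw [deriv_algebraMap, deriv_algebraMap]⟩
  exact hasRiccatiSolution_of_isAlgebraic (hw.restrictScalars F) h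

/-- **Descent through a transcendental element** `s` with `s′ = (e₀ + e₁ s) s`. -/
theorem hasRiccatiSolution_of_transcendental {s : G} {e₀ e₁ : F} (hs : Transcendental F s)
    (hgen : IntermediateField.adjoin F {s} = ⊤)
    (hd : s′ = (algebraMap F G e₀ + algebraMap F G e₁ * s) * s) {r : F}
    (h : HasRiccatiSolution G (algebraMap F G r)) : HasRiccatiSolution F r := by
  obtain ⟨L, _, _, _, _, w, hw, hric⟩ := h
  letI := closureDifferential F
  have := closureDifferentialAlgebra F
  set A := AlgebraicClosure F
  have : CharZero A := charZero_of_injective_ringHom (algebraMap F A).injective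
  have : CharZero G := charZero_of_injective_ringHom (algebraMap F G).injective
  set m : HahnSeries ℚ A := HahnSeries.C (algebraMap F A e₀) +
    HahnSeries.C (algebraMap F A e₁) * HahnSeries.single 1 1
  have hm : ∀ j < (0 : ℚ), m.coeff j = 0 := fun j hj => by
    simp only [m, HahnSeries.coeff_add, HahnSeries.C_apply, HahnSeries.single_mul_single, zero_add,
      HahnSeries.coeff_single_of_ne hj.ne, HahnSeries.coeff_single_of_ne (hj.trans one_pos).ne]
  letI : Differential (HahnSeries ℚ A) := seriesDifferential m
  obtain ⟨g₀, hgs, hgC⟩ := exists_series_hom (algebraMap F A) hs hgen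
  let g₁ : G →+* puiseuxField A := (puiseuxEmbedding 1).comp g₀
  let g : G →+* HahnSeries ℚ A := (puiseuxField A).subtype.comp g₁
  have hs' : g s = HahnSeries.single 1 1 := by
    show rootEmbedding 1 (g₀ s) = _
    rw [hgs, rootEmbedding_single]
    norm_num
  have hC' : ∀ c : F, g (algebraMap F G c) = HahnSeries.C (algebraMap F A c) := fun c => by
    show rootEmbedding 1 (g₀ (algebraMap F G c)) = _
    rw [hgC, rootEmbedding, HahnSeries.embDomainRingHom_C]
  have hg : ∀ a, g (a′) = (g a)′ := map_deriv_of_generated g hgen (fun c => by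
      rw [hC', hC', ← deriv_algebraMap]
      exact (seriesDerivFun_C m _).symm) (by
      rw [hd, map_mul, map_add, map_mul, hC', hC', hs']
      exact (seriesDerivFun_single_one m).symm)
  letI : Algebra G (HahnSeries ℚ A) := g.toAlgebra
  have : DifferentialAlgebra G (HahnSeries ℚ A) := ⟨fun a => (hg a).symm⟩
  have : IsAlgClosed (puiseuxField A) := isAlgClosed_puiseuxField
  obtain ⟨z, hz⟩ := IsAlgClosed.exists_root ((minpoly G w).map g₁) (by
    rw [degree_map]; exact (minpoly.degree_pos hw.isIntegral).ne')
  have hU : aeval (z : HahnSeries ℚ A) (minpoly G w) = 0 := by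
    rw [aeval_def, show algebraMap G (HahnSeries ℚ A) = (puiseuxField A).subtype.comp g₁ from rfl,
      show (z : HahnSeries ℚ A) = (puiseuxField A).subtype z from rfl, ← hom_eval₂,
      ← eval_map, hz.eq_zero, map_zero]
  have h1 := riccati_of_root (G := G) (P := HahnSeries ℚ A) hw hric hU
  rw [show algebraMap G (HahnSeries ℚ A) (algebraMap F G r) = HahnSeries.C (algebraMap F A r) from
    hC' r] at h1
  exact ⟨A, inferInstance, inferInstance, inferInstance, inferInstance, _,
    Algebra.IsAlgebraic.isAlgebraic _, riccati_coeff_zero hm h1⟩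

variable {M : Type v} [Field M] [Differential M] [Algebra F M] [DifferentialAlgebra F M]

/-- The field generated by an element of a tower is stable. -/
theorem deriv_mem_adjoin_simple {t : M} (ht : IsAlgebraic F t ∨
    (∃ e : F, t′ = algebraMap F M e) ∨ ∃ e : F, t′ = algebraMap F M e * t) {a : M}
    (ha : a ∈ IntermediateField.adjoin F {t}) : a′ ∈ IntermediateField.adjoin F {t} := by
  refine deriv_mem_adjoin (fun c => ?_) (fun w hw => ?_) ha
  · rw [deriv_algebraMap]; exact IntermediateField.algebraMap_mem _ _
  rw [Set.mem_singleton_iff.1 hw]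
  set E := IntermediateField.adjoin F {t}
  let x : E := ⟨t, IntermediateField.mem_adjoin_simple_self F t⟩
  rcases ht with h | ⟨e, he⟩ | ⟨e, he⟩
  · rw [deriv_eq_algDeriv (F := F) h, show t = E.val x from rfl, ← map_algDeriv]
    exact Subtype.prop _
  · rw [he]; exact IntermediateField.algebraMap_mem _ _
  · rw [he]; exact mul_mem (IntermediateField.algebraMap_mem _ _) x.2

/-- **One step of the descent.** -/
theorem hasRiccatiSolution_step {t : M} (ht : IsAlgebraic F t ∨
    (∃ e : F, t′ = algebraMap F M e) ∨ ∃ e : F, t′ = algebraMap F M e * t) {r : F}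
    (h : @HasRiccatiSolution (IntermediateField.adjoin F {t}) _
      (restrictDifferential (IntermediateField.adjoin F {t})
        fun _ ha => deriv_mem_adjoin_simple ht ha)
      (algebraMap F (IntermediateField.adjoin F {t}) r)) :
    HasRiccatiSolution F r := by
  set E := IntermediateField.adjoin F {t}
  letI : Differential E := restrictDifferential E fun _ ha => deriv_mem_adjoin_simple ht ha
  have : DifferentialAlgebra F E := ⟨fun c => Subtype.ext (deriv_algebraMap c)⟩
  by_cases halg : IsAlgebraic F t
  · have : Algebra.IsAlgebraic F E := IntermediateField.isAlgebraic_adjoin_simple halg.isIntegral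
    exact hasRiccatiSolution_of_algebraic h
  let x : E := ⟨t, IntermediateField.mem_adjoin_simple_self F t⟩
  have ht0 : t ≠ 0 := fun h0 => halg (h0 ▸ isAlgebraic_zero)
  have hx0 : x ≠ 0 := fun h0 => ht0 (congrArg Subtype.val h0)
  have hs : Transcendental F x⁻¹ := fun h0 => halg (by
    have h1 := h0.inv
    rw [inv_inv] at h1
    exact (isAlgebraic_algHom_iff E.val E.val.toRingHom.injective).2 h1)
  have hgen : IntermediateField.adjoin F {x⁻¹} = ⊤ := by
    refine eq_top_iff.2 ?_
    have h1 : IntermediateField.adjoin F {x} = ⊤ := by
      refine IntermediateField.map_injective E.val ?_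
      rw [IntermediateField.adjoin_map, Set.image_singleton, ← AlgHom.fieldRange_eq_map,
        IntermediateField.fieldRange_val]
      rfl
    rw [← h1, IntermediateField.adjoin_simple_le_iff]
    simpa using inv_mem (IntermediateField.mem_adjoin_simple_self F x⁻¹)
  rcases ht.resolve_left halg with ⟨e, he⟩ | ⟨e, he⟩
  · refine hasRiccatiSolution_of_transcendental (e₀ := 0) (e₁ := -e) hs hgen ?_ h
    have h1 : x′ = algebraMap F E e := Subtype.ext he
    rw [Derivation.leibniz_inv, smul_eq_mul, h1, map_zero, map_neg]
    ring
  · refine hasRiccatiSolution_of_transcendental (e₀ := -e) (e₁ := 0) hs hgen ?_ h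
    have h1 : x′ = algebraMap F E e * x := Subtype.ext he
    rw [Derivation.leibniz_inv, smul_eq_mul, h1, map_zero, map_neg, zero_mul, add_zero]
    field_simp

end

/-- The tower without its first element. -/
theorem isLiouvillianTower_tail {F : Type u} [Field F] {M : Type v} [Field M] [Differential M]
    [Algebra F M] {N : ℕ} {s : Fin (N + 1) → M} (hs : IsLiouvillianTower F s) :
    IsLiouvillianTower (IntermediateField.adjoin F {s 0}) (fun i : Fin N => s i.succ) ∧
      ∀ a ∈ IntermediateField.adjoin F (Set.range s),
        a ∈ IntermediateField.adjoin (IntermediateField.adjoin F {s 0})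
          (Set.range fun i : Fin N => s i.succ) := by
  set E := IntermediateField.adjoin F {s 0}
  have hle : ∀ (S : Set (Fin (N + 1))) (S' : Set (Fin N)), (∀ i, i.succ ∈ S → i ∈ S') →
      IntermediateField.adjoin F (s '' S) ≤
        (IntermediateField.adjoin E ((fun i : Fin N => s i.succ) '' S')).restrictScalars F := by
    intro S S' hS
    refine IntermediateField.adjoin_le_iff.2 ?_
    rintro _ ⟨i, hi, rfl⟩
    induction i using Fin.cases with
    | zero =>
      exact (IntermediateField.adjoin E ((fun i : Fin N => s i.succ) '' S')).algebraMap_mem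
        (⟨s 0, IntermediateField.mem_adjoin_simple_self F _⟩ : E)
    | succ k => exact IntermediateField.subset_adjoin E _ ⟨k, hS k hi, rfl⟩
  refine ⟨fun j => ?_, fun a ha => ?_⟩
  · have h0 := hle (Set.Iio j.succ) (Set.Iio j) fun i hi => Fin.succ_lt_succ_iff.1 hi
    rcases hs j.succ with h | h | ⟨e, he, h⟩
    · exact .inl (h.ringHom_of_comp_eq (IntermediateField.inclusion h0).toRingHom (RingHom.id M)
        (fun a b hab => Subtype.ext (Subtype.ext_iff.1 hab :)) rfl)
    · exact .inr (.inl (h0 h))
    · exact .inr (.inr ⟨e, h0 he, h⟩)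
  · have := hle Set.univ Set.univ fun i _ => trivial
    rw [Set.image_univ, Set.image_univ] at this
    exact this ha

/-- The descent through a first element. -/
theorem hasRiccatiSolution_cons {F : Type u} [Field F] [Differential F] [CharZero F] {M : Type v}
    [Field M] [Differential M] [Algebra F M] [DifferentialAlgebra F M] {N : ℕ}
    (IH : ∀ (E : Type v) [Field E] [Differential E] [CharZero E] [Algebra E M]
      [DifferentialAlgebra E M] (s : Fin N → M), IsLiouvillianTower E s → ∀ (r : E) (w : M),
        w ∈ IntermediateField.adjoin E (Set.range s) → w′ + w ^ 2 = algebraMap E M r →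
          HasRiccatiSolution E r)
    (s : Fin (N + 1) → M) (hs : IsLiouvillianTower F s) (r : F) (w : M)
    (hw : w ∈ IntermediateField.adjoin F (Set.range s)) (h : w′ + w ^ 2 = algebraMap F M r) :
    HasRiccatiSolution F r := by
  have hbot : IntermediateField.adjoin F (s '' Set.Iio 0) = ⊥ := by
    rw [show Set.Iio (0 : Fin (N + 1)) = ∅ from Set.eq_empty_of_forall_notMem fun i hi =>
      Fin.not_lt_zero i hi, Set.image_empty, IntermediateField.adjoin_empty]
  have h0 : IsAlgebraic F (s 0) ∨ (∃ e : F, (s 0)′ = algebraMap F M e) ∨
      ∃ e : F, (s 0)′ = algebraMap F M e * s 0 := by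
    rcases hs 0 with h1 | h1 | ⟨e, he, h1⟩
    · left
      have : Algebra.IsAlgebraic F (IntermediateField.adjoin F (s '' Set.Iio (0 : Fin (N + 1)))) :=
        IntermediateField.isAlgebraic_adjoin fun a ha => by
          obtain ⟨i, hi, -⟩ := ha
          exact absurd hi (Fin.not_lt_zero i)
      exact h1.restrictScalars F
    · rw [hbot] at h1
      obtain ⟨e, he⟩ := IntermediateField.mem_bot.1 h1
      exact .inr (.inl ⟨e, he.symm⟩)
    · rw [hbot] at he
      obtain ⟨e, rfl⟩ := IntermediateField.mem_bot.1 he
      exact .inr (.inr ⟨e, h1⟩)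
  refine hasRiccatiSolution_step h0 ?_
  letI : Differential (IntermediateField.adjoin F {s 0}) :=
    restrictDifferential _ fun _ ha => deriv_mem_adjoin_simple h0 ha
  have : DifferentialAlgebra (IntermediateField.adjoin F {s 0}) M := ⟨fun _ => rfl⟩
  have : CharZero (IntermediateField.adjoin F {s 0}) :=
    charZero_of_injective_ringHom (algebraMap F _).injective
  obtain ⟨h1, h2⟩ := isLiouvillianTower_tail hs
  exact IH _ _ h1 _ w (h2 w hw) h

theorem hasRiccatiSolution_nil {F : Type u} [Field F] [Differential F] [CharZero F] {M : Type v}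
    [Field M] [Differential M] [Algebra F M] [DifferentialAlgebra F M] {s : Fin 0 → M} {r : F}
    {w : M} (hw : w ∈ IntermediateField.adjoin F (Set.range s))
    (h : w′ + w ^ 2 = algebraMap F M r) : HasRiccatiSolution F r := by
  rw [Set.range_eq_empty s, IntermediateField.adjoin_empty] at hw
  obtain ⟨c, rfl⟩ := IntermediateField.mem_bot.1 hw
  exact hasRiccatiSolution_of_isAlgebraic (isAlgebraic_algebraMap c) h

theorem hasRiccatiSolution_of_tower_aux {M : Type v} [Field M] [Differential M] :
    ∀ (N : ℕ) (E : Type v) [Field E] [Differential E] [CharZero E] [Algebra E M]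
      [DifferentialAlgebra E M] (s : Fin N → M), IsLiouvillianTower E s → ∀ (r : E) (w : M),
        w ∈ IntermediateField.adjoin E (Set.range s) → w′ + w ^ 2 = algebraMap E M r →
          HasRiccatiSolution E r := by
  intro N
  induction N with
  | zero => intro E _ _ _ _ _ s _ r w hw h; exact hasRiccatiSolution_nil hw h
  | succ N ih => intro E _ _ _ _ _ s hs r w hw h; exact hasRiccatiSolution_cons ih s hs r w hw h

/-- **Liouville–Singer**: a Riccati equation solvable in a Liouvillian tower has an algebraic
solution. -/
theorem hasRiccatiSolution_of_tower {F : Type u} [Field F] [Differential F] [CharZero F]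
    {M : Type v} [Field M] [Differential M] [Algebra F M] [DifferentialAlgebra F M] {N : ℕ}
    (s : Fin N → M) (hs : IsLiouvillianTower F s) (r : F) (w : M)
    (hw : w ∈ IntermediateField.adjoin F (Set.range s)) (h : w′ + w ^ 2 = algebraMap F M r) :
    HasRiccatiSolution F r := by
  cases N with
  | zero => exact hasRiccatiSolution_nil hw h
  | succ N => exact hasRiccatiSolution_cons (hasRiccatiSolution_of_tower_aux N) s hs r w hw h

/-- The logarithmic derivative of a solution of `y'' = r y`. -/
theorem riccati_logDeriv {F : Type u} {M : Type v} [Field F] [Field M] [Differential M]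
    [Algebra F M] {r : F} {y : M} (hy : y ≠ 0) (h : y′′ = algebraMap F M r * y) :
    (y′ / y)′ + (y′ / y) ^ 2 = algebraMap F M r := by
  rw [div_eq_mul_inv, Derivation.leibniz, Derivation.leibniz_inv, h, smul_eq_mul, smul_eq_mul,
    smul_eq_mul]
  field_simp
  ring

end Fermat.Agent.Liouvillian
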