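import Fermat.Agent.Liouvillian.Polynomial

/-!
# Equations `y'' = p(x) y` without Liouvillian solutions
-/

set_option autoImplicit false

noncomputable section

open Polynomial Differential Fermat.Agent.AxSchanuel Fermat.Agent.ElementaryIntegration
open scoped Differential

namespace Fermat.Agent.Liouvillian

universe u v

/-- The field of a Liouvillian tower is differential. -/
theorem deriv_mem_tower {F : Type u} [Field F] [Differential F] [CharZero F] {M : Type v} [Field M]
    [Differential M] [Algebra F M] [DifferentialAlgebra F M] {N : ℕ} {s : Fin N → M}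
    (hs : IsLiouvillianTower F s) {a : M} (ha : a ∈ IntermediateField.adjoin F (Set.range s)) :
    a′ ∈ IntermediateField.adjoin F (Set.range s) := by
  have key : ∀ j, (s j)′ ∈ IntermediateField.adjoin F (s '' Set.Iic j) := by
    intro j
    induction j using WellFoundedLT.induction with
    | ind j ih =>
      set E := IntermediateField.adjoin F (s '' Set.Iio j)
      have hE : ∀ b ∈ E, b′ ∈ E := fun b hb => deriv_mem_adjoin (B := F) (S := s '' Set.Iio j)
        (fun c => by rw [deriv_algebraMap]; exact IntermediateField.algebraMap_mem _ _)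
        (fun z hz => by
          obtain ⟨i, hi, rfl⟩ := hz
          exact IntermediateField.adjoin.mono F _ _
            (Set.image_mono (fun k (hk : k ≤ i) => lt_of_le_of_lt hk hi : Set.Iic i ⊆ Set.Iio j))
            (ih i hi)) hb
      have hle : E ≤ IntermediateField.adjoin F (s '' Set.Iic j) :=
        IntermediateField.adjoin.mono F _ _ (Set.image_mono Set.Iio_subset_Iic_self)
      have hj : s j ∈ IntermediateField.adjoin F (s '' Set.Iic j) :=
        IntermediateField.subset_adjoin F _ ⟨j, Set.mem_Iic.2 le_rfl, rfl⟩
      rcases hs j with h | h | ⟨e, he, h⟩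
      · letI : Differential E := restrictDifferential E hE
        have : DifferentialAlgebra E M := ⟨fun _ => rfl⟩
        have : CharZero E := charZero_of_injective_ringHom (algebraMap F E).injective
        have h1 := deriv_mem_adjoin_simple (F := E) (.inl h)
          (IntermediateField.mem_adjoin_simple_self E (s j))
        have h2 : (IntermediateField.adjoin E {s j}).restrictScalars F ≤
            IntermediateField.adjoin F (s '' Set.Iic j) := by
          rw [IntermediateField.adjoin_adjoin_left, IntermediateField.adjoin_le_iff]
          refine Set.union_subset ?_ (Set.singleton_subset_iff.2 hj)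
          exact (Set.image_mono Set.Iio_subset_Iic_self).trans (IntermediateField.subset_adjoin F _)
        exact h2 h1
      · exact hle h
      · rw [h]; exact mul_mem (hle he) hj
  exact deriv_mem_adjoin
    (fun c => by rw [deriv_algebraMap]; exact IntermediateField.algebraMap_mem _ _)
    (fun z hz => by
      obtain ⟨i, rfl⟩ := hz
      exact IntermediateField.adjoin.mono F _ _ (Set.image_subset_range _ _) (key i)) ha

variable {C : Type u} {F : Type v} [Field C] [CharZero C] [Field F] [Differential F] [Algebra C F]
  {x : F} (hCc : ∀ c : C, (algebraMap C F c)′ = 0) (hx : x′ = 1)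
  (hgen : IntermediateField.adjoin C {x} = ⊤)

include hCc hx hgen in
/-- **`y'' = p(x) y` has no Liouvillian solution** for `p` of odd degree. -/
theorem eq_zero_of_liouvillian {M : Type v} [Field M] [Differential M] [Algebra F M]
    [DifferentialAlgebra F M] {p : C[X]} (hp : Odd p.natDegree) {N : ℕ} {s : Fin N → M}
    (hs : IsLiouvillianTower F s) {y : M} (hy : y ∈ IntermediateField.adjoin F (Set.range s))
    (h : y′′ = algebraMap F M (aeval x p) * y) : y = 0 := by
  have : CharZero F := charZero_of_injective_ringHom (algebraMap C F).injective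
  by_contra hy0
  exact not_hasRiccatiSolution hCc hx hgen hp (hasRiccatiSolution_of_tower s hs _ (y′ / y)
    (div_mem (deriv_mem_tower hs hy) hy) (riccati_logDeriv hy0 h))

/-- The coefficients of a solution of `y'' = p y`. -/
def solCoeff {C : Type u} [Field C] (p : C[X]) : ℕ → C
  | 0 => 1
  | 1 => 0
  | n + 2 => (∑ i : Fin (n + 1), p.coeff (n - i) * solCoeff p i) / ((n + 2) * (n + 1))

theorem derivative_derivative_solution {C : Type u} [Field C] [CharZero C] (p : C[X]) :
    PowerSeries.derivative C (PowerSeries.derivative C (PowerSeries.mk (solCoeff p))) =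
      (p : PowerSeries C) * PowerSeries.mk (solCoeff p) := by
  ext n
  rw [PowerSeries.coeff_derivative, PowerSeries.coeff_derivative, PowerSeries.coeff_mul,
    PowerSeries.coeff_mk, ← Finset.Nat.sum_antidiagonal_swap,
    Finset.Nat.sum_antidiagonal_eq_sum_range_succ_mk,
    ← Fin.sum_univ_eq_sum_range]
  simp only [Prod.swap_prod_mk, Polynomial.coeff_coe, PowerSeries.coeff_mk]
  rw [show n + 1 + 1 = n + 2 from rfl, solCoeff]
  have h1 : ((n : C) + 2) ≠ 0 := by exact_mod_cast (by omega : n + 2 ≠ 0)
  have h2 : ((n : C) + 1) ≠ 0 := Nat.cast_add_one_ne_zero n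
  push_cast
  field_simp
  ring

/-- There is a nonzero solution in Laurent series, and it is not Liouvillian. -/
theorem exists_solution (C : Type u) [Field C] [CharZero C] (p : C[X]) (hp : Odd p.natDegree) :
    ∃ (F M : Type u) (_ : Field F) (_ : Differential F) (_ : Field M) (_ : Differential M)
      (_ : Algebra C F) (_ : Algebra F M) (_ : DifferentialAlgebra F M) (x : F) (y : M),
      (∀ c : C, (algebraMap C F c)′ = 0) ∧ x′ = 1 ∧ IntermediateField.adjoin C {x} = ⊤ ∧ y ≠ 0 ∧
        y′′ = algebraMap F M (aeval x p) * y ∧
          ∀ (N : ℕ) (s : Fin N → M), IsLiouvillianTower F s →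
            y ∉ IntermediateField.adjoin F (Set.range s) := by
  set t := HahnSeries.single (1 : ℤ) (1 : C)
  have ht : t ≠ 0 := HahnSeries.single_ne_zero one_ne_zero
  letI : Differential (LaurentSeries C) := scaleDifferential laurentEuler t⁻¹
  have hδ : ∀ f : PowerSeries C, (f : LaurentSeries C)′ =
      ((PowerSeries.derivative C f : PowerSeries C) : LaurentSeries C) := fun f => by
    show t⁻¹ * laurentEuler (f : LaurentSeries C) = _
    rw [laurentEuler_coe, PowerSeries.coe_mul, PowerSeries.coe_X, ← mul_assoc,
      inv_mul_cancel₀ ht, one_mul]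
  have hC : ∀ c : C, (algebraMap C (LaurentSeries C) c)′ = 0 := fun c => by
    rw [algebraMap_laurent, ← HahnSeries.ofPowerSeries_C, hδ, PowerSeries.derivative_C,
      PowerSeries.coe_zero]
  have ht1 : t′ = 1 := by
    rw [show t = ((PowerSeries.X : PowerSeries C) : LaurentSeries C) from PowerSeries.coe_X.symm,
      hδ, PowerSeries.derivative_X, PowerSeries.coe_one]
  set F₀ := IntermediateField.adjoin C {t}
  have hF₀ : ∀ a ∈ F₀, a′ ∈ F₀ := fun a ha => deriv_mem_adjoin
    (fun c => by rw [hC]; exact zero_mem _)
    (fun s hs => by rw [Set.mem_singleton_iff.1 hs, ht1]; exact one_mem _) ha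
  letI : Differential F₀ := restrictDifferential F₀ hF₀
  have : DifferentialAlgebra F₀ (LaurentSeries C) := ⟨fun a => rfl⟩
  set x : F₀ := ⟨t, IntermediateField.mem_adjoin_simple_self C t⟩
  have hCc : ∀ c : C, (algebraMap C F₀ c)′ = 0 := fun c => Subtype.ext (hC c)
  have hx : x′ = 1 := Subtype.ext ht1
  have hgen : IntermediateField.adjoin C {x} = ⊤ := by
    refine IntermediateField.map_injective F₀.val ?_
    rw [IntermediateField.adjoin_map, Set.image_singleton, ← AlgHom.fieldRange_eq_map,
      IntermediateField.fieldRange_val]
    rfl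
  set f : PowerSeries C := PowerSeries.mk (solCoeff p)
  set y : LaurentSeries C := (f : LaurentSeries C)
  have hy0 : y ≠ 0 := fun h => by
    rw [← PowerSeries.coe_zero] at h
    have h' := congrArg (PowerSeries.coeff 0) (HahnSeries.ofPowerSeries_injective h)
    simp [f, solCoeff] at h'
  have hy : y′′ = algebraMap F₀ (LaurentSeries C) (aeval x p) * y := by
    rw [hδ, hδ, derivative_derivative_solution, PowerSeries.coe_mul]
    congr 1
    show _ = (F₀.val (aeval x p) : LaurentSeries C)
    rw [← aeval_algHom_apply]
    show _ = aeval t p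
    rw [aeval_def, ← Polynomial.eval₂_C_X (p := p), ← Polynomial.coeToPowerSeries.ringHom_apply,
      Polynomial.hom_eval₂, Polynomial.hom_eval₂, Polynomial.eval₂_C_X]
    congr 1
    · ext c
      simp [algebraMap_laurent]
    · simp [t]
  exact ⟨F₀, LaurentSeries C, inferInstance, inferInstance, inferInstance, inferInstance,
    inferInstance, inferInstance, inferInstance, x, y, hCc, hx, hgen, hy0, hy,
    fun N s hs hmem => hy0 (eq_zero_of_liouvillian hCc hx hgen hp hs hmem hy)⟩

end Fermat.Agent.Liouvillian
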