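import Fermat.Agent.Liouvillian.Descent
import Mathlib.Algebra.Polynomial.Div

/-!
# Riccati equations with polynomial right hand side
-/

set_option autoImplicit false

noncomputable section

open Polynomial Differential Fermat.Agent.NewtonPuiseux Fermat.Agent.AxSchanuel
  Fermat.Agent.ElementaryIntegration
open scoped Differential

namespace Fermat.Agent.Liouvillian

universe u v

section Series

variable {A : Type*} [Field A] [Differential A] [CharZero A] {m R U V : HahnSeries ℚ A}
  (hA : ∀ a : A, a′ = 0) (hm : ∀ j < (1 : ℚ), m.coeff j = 0) {d : ℚ} (hd : 0 < d)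

include hA hm in
theorem coeff_deriv_zero {a k : ℚ} (hU : ∀ j < a, U.coeff j = 0) (hk : k < 1 + a) :
    (seriesDerivFun m U).coeff k = 0 :=
  coeff_seriesDerivFun_eq_zero hm hU hk (hA _)

include hA hm hd in
/-- A solution starts with a square root at half the order. -/
theorem riccati_leading (hR : ∀ j < -d, R.coeff j = 0) (hR0 : R.coeff (-d) ≠ 0)
    (h : seriesDerivFun m U + U ^ 2 = R) :
    (∀ j < -d / 2, U.coeff j = 0) ∧ U.coeff (-d / 2) ^ 2 = R.coeff (-d) := by
  have hU : U ≠ 0 := by
    rintro rfl
    apply hR0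
    rw [← h, zero_pow two_ne_zero, add_zero]
    exact coeff_deriv_zero hA hm (a := 0) (fun j _ => HahnSeries.coeff_zero) (by linarith)
  set o := U.order
  have hlow : ∀ j < o, U.coeff j = 0 := fun j hj => coeff_eq_zero_of_lt_order hj
  rcases lt_trichotomy (o + o) (-d) with ho | ho | ho
  · have h1 := congrArg (fun w : HahnSeries ℚ A => w.coeff (o + o)) h
    rw [hR _ ho, sq, HahnSeries.coeff_add, coeff_deriv_zero hA hm hlow (by linarith), zero_add,
      coeff_mul_add hlow hlow] at h1
    exact absurd (mul_self_eq_zero.1 h1) (coeff_order_ne_zero hU)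
  · rw [show -d / 2 = o by linarith, ← h, sq, sq, HahnSeries.coeff_add, ← ho,
      coeff_deriv_zero hA hm hlow (by linarith), zero_add, coeff_mul_add hlow hlow]
    exact ⟨hlow, rfl⟩
  · have h1 := congrArg (fun w : HahnSeries ℚ A => w.coeff (-d)) h
    rw [sq, HahnSeries.coeff_add, coeff_deriv_zero hA hm hlow (by linarith), zero_add,
      coeff_mul_eq_zero hlow hlow ho] at h1
    exact absurd h1.symm hR0

include hA hm hd in
/-- The first coefficient determines a solution. -/
theorem riccati_unique (hR : ∀ j < -d, R.coeff j = 0) (hR0 : R.coeff (-d) ≠ 0)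
    (hU : seriesDerivFun m U + U ^ 2 = R) (hV : seriesDerivFun m V + V ^ 2 = R)
    (huv : U.coeff (-d / 2) = V.coeff (-d / 2)) : U = V := by
  letI := seriesDifferential m
  have hU' : U′ + U ^ 2 = R := hU
  have hV' : V′ + V ^ 2 = R := hV
  obtain ⟨hUl, hU0⟩ := riccati_leading hA hm hd hR hR0 hU
  obtain ⟨hVl, -⟩ := riccati_leading hA hm hd hR hR0 hV
  by_contra hne
  set W := U - V
  have hW : W ≠ 0 := sub_ne_zero.2 hne
  have h1 : W′ + (U + V) * W = 0 := by
    simp only [W, map_sub]
    linear_combination hU' - hV'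
  have h2 := congrArg (fun w : HahnSeries ℚ A => w.coeff (-d / 2 + W.order)) h1
  have hT : ∀ j < -d / 2, (U + V).coeff j = 0 := fun j hj => by
    rw [HahnSeries.coeff_add, hUl j hj, hVl j hj, add_zero]
  rw [HahnSeries.coeff_add, show W′ = seriesDerivFun m W from rfl,
    coeff_deriv_zero hA hm (fun j => coeff_eq_zero_of_lt_order (j := j)) (by linarith), zero_add,
    coeff_mul_add hT (fun j => coeff_eq_zero_of_lt_order (j := j)), HahnSeries.coeff_zero,
    HahnSeries.coeff_add, ← huv, mul_eq_zero] at h2
  rcases h2 with h2 | h2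
  · rw [← two_mul, mul_eq_zero] at h2
    refine hR0 ?_
    rw [← hU0, h2.resolve_left two_ne_zero, zero_pow two_ne_zero]
  · exact coeff_order_ne_zero hW h2

/-- The equation of the squared difference of two solutions. -/
theorem discriminant_equation {P : Type*} [Field P] [Differential P] [CharZero P] {R U V : P}
    (hU : U′ + U ^ 2 = R) (hV : V′ + V ^ 2 = R) :
    -4 * ((U - V) ^ 2) * ((U - V) ^ 2)′′ + 5 * ((U - V) ^ 2)′ ^ 2 + 4 * ((U - V) ^ 2) ^ 3 =
      16 * R * ((U - V) ^ 2) ^ 2 := by
  set D := U - V
  set S := U + V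
  have hD : D′ = -(S * D) := by
    simp only [D, S, map_sub]
    linear_combination hU - hV
  have hS : 2 * S′ + (S ^ 2 + D ^ 2) = 4 * R := by
    simp only [D, S, map_add]
    linear_combination 2 * hU + 2 * hV
  have hW : (D ^ 2)′ = -2 * (S * D ^ 2) := by
    rw [pow_two, Derivation.leibniz, smul_eq_mul, hD]
    ring
  have hW' : (D ^ 2)′′ = -2 * (S * (D ^ 2)′) + -2 * (D ^ 2 * S′) := by
    rw [hW, neg_mul, map_neg, two_mul, map_add, Derivation.leibniz, smul_eq_mul, smul_eq_mul, hW]
    ring
  rw [hW', hW]
  linear_combination 4 * (D ^ 2) ^ 2 * hS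

end Series

/-- The polynomial form of the equation has no solution with a zero. -/
theorem no_zero_of_equation {A : Type*} [Field A] [CharZero A] {P Q p : A[X]} {a : A} (hP0 : P ≠ 0)
    (hPa : P.eval a = 0) (hQa : Q.eval a ≠ 0) {B : A[X]}
    (hB : B = derivative P * Q - P * derivative Q)
    (h : -4 * (P * (derivative B * Q - 2 * B * derivative Q)) + 5 * B ^ 2 + 4 * (P ^ 3 * Q) =
      16 * (p * (P ^ 2 * Q ^ 2))) : False := by
  obtain ⟨R, hR, hRa⟩ := exists_eq_pow_rootMultiplicity_mul_and_not_dvd P hP0 a
  obtain ⟨j, hj⟩ := Nat.exists_eq_succ_of_ne_zero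
    ((rootMultiplicity_pos hP0).2 hPa : 0 < rootMultiplicity a P).ne'
  rw [hj] at hR
  set H := X - Polynomial.C a
  have hH : derivative H = 1 := derivative_X_sub_C a
  set B₀ := ((j : A[X]) + 1) * R * Q + H * (derivative R * Q - R * derivative Q)
  have hBB : B = H ^ j * B₀ := by
    rw [hB, hR, derivative_mul, derivative_pow, hH]
    simp only [Nat.succ_eq_add_one, Nat.add_sub_cancel, Nat.cast_add, Nat.cast_one, map_add,
      map_natCast, map_one, B₀]
    ring
  have hdB : H * derivative B = H ^ j * ((j : A[X]) * B₀ + H * derivative B₀) := by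
    rw [hBB, derivative_mul, derivative_pow, hH]
    cases j with
    | zero => simp
    | succ j =>
      simp only [Nat.add_sub_cancel, Nat.cast_add, Nat.cast_one, map_add, map_natCast, map_one]
      ring
  have hkey : H ^ (2 * j + 1) * (-4 * (R * (((j : A[X]) * B₀ + H * derivative B₀) * Q -
      2 * (H * B₀) * derivative Q)) + 5 * B₀ ^ 2 + 4 * (H ^ (j + 3) * R ^ 3 * Q) -
        16 * (p * (H ^ 2 * (R ^ 2 * Q ^ 2)))) = 0 := by
    have hP : P = H ^ (j + 1) * R := hR
    have e : H * (-4 * (P * (derivative B * Q - 2 * B * derivative Q)) + 5 * B ^ 2 +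
        4 * (P ^ 3 * Q) - 16 * (p * (P ^ 2 * Q ^ 2))) = 0 := by rw [h, sub_self, mul_zero]
    rw [show H * (-4 * (P * (derivative B * Q - 2 * B * derivative Q)) + 5 * B ^ 2 +
        4 * (P ^ 3 * Q) - 16 * (p * (P ^ 2 * Q ^ 2))) =
      -4 * (P * (H * derivative B * Q - 2 * (H * B) * derivative Q)) + 5 * (H * B ^ 2) +
        4 * (H * (P ^ 3 * Q)) - 16 * (p * (H * (P ^ 2 * Q ^ 2))) by ring, hdB, hBB, hP] at e
    linear_combination e
  have h1 := congrArg (Polynomial.eval a)
    ((mul_eq_zero.1 hkey).resolve_left (pow_ne_zero _ (X_sub_C_ne_zero a)))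
  simp only [B₀, H, eval_add, eval_sub, eval_mul, eval_pow, eval_neg, eval_X, eval_C, sub_self,
    zero_mul, mul_zero, add_zero, sub_zero, zero_pow two_ne_zero, zero_pow (by omega : j + 3 ≠ 0),
    eval_natCast, eval_one, eval_ofNat, eval_zero] at h1
  have h2 : (R.eval a * Q.eval a) ^ 2 * (((j : A) + 1) * ((j : A) + 5)) = 0 := by
    linear_combination h1
  refine mul_ne_zero (pow_ne_zero _ (mul_ne_zero (fun h3 => hRa ((dvd_iff_isRoot).2 h3)) hQa))
    (mul_ne_zero (Nat.cast_add_one_ne_zero j) ?_) h2
  exact_mod_cast (by omega : j + 5 ≠ 0)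

variable {C : Type u} {F : Type v} [Field C] [CharZero C] [Field F] [Differential F] [Algebra C F]
  {x : F} (hCc : ∀ c : C, (algebraMap C F c)′ = 0) (hx : x′ = 1)
  (hgen : IntermediateField.adjoin C {x} = ⊤)

include hCc hx hgen in
/-- **No algebraic solution of `v' + v² = p(x)`** for `p` of odd degree. -/
theorem not_hasRiccatiSolution {p : C[X]} (hp : Odd p.natDegree) :
    ¬ HasRiccatiSolution F (aeval x p) := by
  rintro ⟨L, _, _, _, _, w, hw, hric⟩
  have : CharZero F := charZero_of_injective_ringHom (algebraMap C F).injective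
  have hx0 : x ≠ 0 := fun h => one_ne_zero (α := F) (by rw [← hx, h, map_zero])
  have hs : Transcendental C x⁻¹ := fun h => transcendental_var hCc hx (inv_inv x ▸ h.inv)
  have hgen' : IntermediateField.adjoin C {x⁻¹} = ⊤ := by
    rw [eq_top_iff, ← hgen, IntermediateField.adjoin_simple_le_iff]
    simpa using inv_mem (IntermediateField.mem_adjoin_simple_self C x⁻¹)
  set A := AlgebraicClosure C
  have : CharZero A := charZero_of_injective_ringHom (algebraMap C A).injective
  letI : Differential C := ⟨0⟩
  letI : Differential A := ⟨0⟩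
  have : DifferentialAlgebra C F := ⟨fun c => by rw [hCc]; exact (map_zero _).symm⟩
  have hA : ∀ a : A, a′ = 0 := fun a => rfl
  set m : HahnSeries ℚ A := -HahnSeries.single 1 1
  have hm : ∀ j < (1 : ℚ), m.coeff j = 0 := fun j hj => by
    simp only [m, HahnSeries.coeff_neg, HahnSeries.coeff_single_of_ne hj.ne, neg_zero]
  letI : Differential (HahnSeries ℚ A) := seriesDifferential m
  obtain ⟨g₀, hgs, hgC⟩ := exists_series_hom (algebraMap C A) hs hgen'
  let g₁ : F →+* puiseuxField A := (puiseuxEmbedding 1).comp g₀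
  let g : F →+* HahnSeries ℚ A := (puiseuxField A).subtype.comp g₁
  have hs' : g x⁻¹ = HahnSeries.single 1 1 := by
    show rootEmbedding 1 (g₀ x⁻¹) = _
    rw [hgs, rootEmbedding_single]
    norm_num
  have hC' : ∀ c : C, g (algebraMap C F c) = HahnSeries.C (algebraMap C A c) := fun c => by
    show rootEmbedding 1 (g₀ (algebraMap C F c)) = _
    rw [hgC, rootEmbedding, HahnSeries.embDomainRingHom_C]
  have hg : ∀ a, g (a′) = (g a)′ := map_deriv_of_generated g hgen' (fun c => by
      rw [show (c′ : C) = 0 from rfl, map_zero, map_zero, hC']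
      exact ((seriesDerivFun_C m _).trans (by rw [hA, map_zero])).symm) (by
      rw [Derivation.leibniz_inv, hx, smul_eq_mul, mul_one, map_neg, map_pow, hs']
      exact ((seriesDerivFun_single_one m).trans (by simp only [m]; ring)).symm)
  have hpoly : ∀ q : C[X], (∀ i : ℕ,
      (g (aeval x q)).coeff (-(i : ℚ)) = algebraMap C A (q.coeff i)) ∧
      ∀ j < -(q.natDegree : ℚ), (g (aeval x q)).coeff j = 0 := fun q => by
    have hgx : g x = HahnSeries.single (-1) 1 := by
      rw [← inv_inv x, map_inv₀, hs', HahnSeries.inv_single, inv_one]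
    have he : g (aeval x q) = ∑ i ∈ Finset.range (q.natDegree + 1),
        HahnSeries.single (-(i : ℚ)) (algebraMap C A (q.coeff i)) := by
      rw [aeval_eq_sum_range, map_sum]
      refine Finset.sum_congr rfl fun i _ => ?_
      rw [Algebra.smul_def, map_mul, map_pow, hC', hgx, HahnSeries.single_pow, one_pow,
        HahnSeries.C_apply, HahnSeries.single_mul_single, zero_add, mul_one, nsmul_eq_mul,
        mul_neg_one]
    refine ⟨fun i => ?_, fun j hj => ?_⟩
    · rw [he, HahnSeries.coeff_sum, Finset.sum_eq_single i]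
      · rw [HahnSeries.coeff_single_same]
      · exact fun k _ hk => HahnSeries.coeff_single_of_ne fun h =>
          hk (by exact_mod_cast (neg_inj.1 h).symm)
      · intro hi
        rw [coeff_eq_zero_of_natDegree_lt (by simpa using hi), map_zero, HahnSeries.single_eq_zero,
          HahnSeries.coeff_zero]
    · rw [he, HahnSeries.coeff_sum]
      refine Finset.sum_eq_zero fun k hk => HahnSeries.coeff_single_of_ne fun h => ?_
      rw [h, neg_lt_neg_iff, Nat.cast_lt] at hj
      simp only [Finset.mem_range] at hk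
      omega
  set d : ℚ := (p.natDegree : ℚ)
  have hd : 0 < d := Nat.cast_pos.2 hp.pos
  have hp0 : p ≠ 0 := fun h => by simp [h] at hp
  set R := g (aeval x p)
  have hR : ∀ j < -d, R.coeff j = 0 := (hpoly p).2
  have hR0 : R.coeff (-d) ≠ 0 := by
    rw [(hpoly p).1]
    exact (_root_.map_ne_zero _).2 (leadingCoeff_ne_zero.2 hp0)
  letI : Algebra F (HahnSeries ℚ A) := g.toAlgebra
  have : DifferentialAlgebra F (HahnSeries ℚ A) := ⟨fun a => (hg a).symm⟩
  letI : Algebra F (puiseuxField A) := g₁.toAlgebra
  have : IsAlgClosed (puiseuxField A) := isAlgClosed_puiseuxField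
  set q := minpoly F w
  have hi := hw.isIntegral
  have hsol : ∀ z ∈ q.rootSet (puiseuxField A),
      seriesDerivFun m (z : HahnSeries ℚ A) + (z : HahnSeries ℚ A) ^ 2 = R := fun z hz => by
    refine riccati_of_root (G := F) (P := HahnSeries ℚ A) hw hric ?_
    rw [aeval_def, show algebraMap F (HahnSeries ℚ A) = (puiseuxField A).subtype.comp g₁ from rfl,
      show (z : HahnSeries ℚ A) = (puiseuxField A).subtype z from rfl, ← hom_eval₂]
    have h0 := (mem_rootSet.1 hz).2
    rw [aeval_def] at h0
    rw [show algebraMap F (puiseuxField A) = g₁ from rfl] at h0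
    rw [h0, map_zero]
  have hcard : Fintype.card (q.rootSet (puiseuxField A)) = q.natDegree :=
    card_rootSet_eq_natDegree (minpoly.irreducible hi).separable (IsAlgClosed.splits _)
  set a := -d / 2
  let lead : q.rootSet (puiseuxField A) → A := fun z =>
    ((z : puiseuxField A) : HahnSeries ℚ A).coeff a
  have hlead : ∀ z, lead z ^ 2 = R.coeff (-d) := fun z =>
    (riccati_leading hA hm hd hR hR0 (hsol _ z.2)).2
  have hinj : Function.Injective lead := fun z z' h =>
    Subtype.ext (Subtype.ext (riccati_unique hA hm hd hR hR0 (hsol _ z.2) (hsol _ z'.2) h))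
  have hn : 0 < q.natDegree := minpoly.natDegree_pos hi
  obtain ⟨z⟩ : Nonempty (q.rootSet (puiseuxField A)) := Fintype.card_pos_iff.1 (hcard ▸ hn)
  have hn2 : q.natDegree ≤ 2 := by
    classical
    rw [← hcard, ← Finset.card_univ, ← Finset.card_image_of_injective _ hinj]
    refine (Finset.card_le_card fun c hc => ?_).trans
      (Finset.card_le_two (a := lead z) (b := -lead z))
    obtain ⟨z', -, rfl⟩ := Finset.mem_image.1 hc
    rw [Finset.mem_insert, Finset.mem_singleton]
    exact sq_eq_sq_iff_eq_or_eq_neg.1 ((hlead z').trans (hlead z).symm)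
  have hmon := minpoly.monic hi
  have haev : ∀ z : q.rootSet (puiseuxField A),
      (((z : puiseuxField A) : HahnSeries ℚ A)) ^ q.natDegree +
        ∑ i ∈ Finset.range q.natDegree,
          g (q.coeff i) * ((z : puiseuxField A) : HahnSeries ℚ A) ^ i = 0 := fun z => by
    have h1 := congrArg (puiseuxField A).subtype (mem_rootSet.1 z.2).2
    rw [aeval_eq_sum_range, Finset.sum_range_succ, map_zero, map_add, map_sum,
      show q.coeff q.natDegree = 1 from hmon.coeff_natDegree, one_smul, map_pow] at h1
    rw [add_comm]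
    refine Eq.trans ?_ h1
    congr 1
  rcases (show q.natDegree = 1 ∨ q.natDegree = 2 by omega) with h1 | h2
  · have hz := haev z
    rw [h1, pow_one, Finset.sum_range_one, pow_zero, mul_one] at hz
    have h0 : lead z = 0 := by
      show ((z : puiseuxField A) : HahnSeries ℚ A).coeff a = 0
      rw [eq_neg_of_add_eq_zero_left hz, HahnSeries.coeff_neg, neg_eq_zero]
      show (rootEmbedding 1 (g₀ (q.coeff 0))).coeff a = 0
      refine HahnSeries.embDomain_of_notMem_range ?_
      rintro ⟨k, hk⟩
      have hk' : (2 * k : ℚ) = -(p.natDegree : ℚ) := by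
        have : (k : ℚ) * (((1 : ℕ+) : ℕ) : ℚ)⁻¹ = a := hk
        simp only [PNat.one_coe, Nat.cast_one, inv_one, mul_one] at this
        rw [this]; simp only [a, d]; ring
      have hk'' : (2 * k : ℤ) = -(p.natDegree : ℤ) := by exact_mod_cast hk'
      obtain ⟨e, he⟩ := hp
      omega
    refine hR0 ?_
    rw [← hlead z, h0, zero_pow two_ne_zero]
  · obtain ⟨z', hne⟩ := Fintype.exists_ne_of_one_lt_card (by rw [hcard, h2]; exact one_lt_two) z
    set U := ((z : puiseuxField A) : HahnSeries ℚ A)
    set V := ((z' : puiseuxField A) : HahnSeries ℚ A)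
    have hU := haev z
    have hV := haev z'
    rw [h2, Finset.sum_range_succ, Finset.sum_range_one, pow_zero, mul_one, pow_one] at hU hV
    have hUV : U ≠ V := fun h => hne (hinj (congrArg (fun w : HahnSeries ℚ A => w.coeff a) h.symm))
    have hsum : U + V = -g (q.coeff 1) := by
      refine mul_left_cancel₀ (sub_ne_zero.2 hUV) ?_
      linear_combination hU - hV
    set W := q.coeff 1 ^ 2 - 4 * q.coeff 0
    have hW : g W = (U - V) ^ 2 := by
      simp only [W, map_sub, map_mul, map_pow, map_ofNat]
      linear_combination (U + V + g (q.coeff 1)) * hsum - 2 * hU - 2 * hV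
    have : CharZero (HahnSeries ℚ A) := charZero_of_injective_ringHom g.injective
    have heq : -4 * W * W′′ + 5 * W′ ^ 2 + 4 * W ^ 3 = 16 * aeval x p * W ^ 2 := by
      refine g.injective ?_
      simp only [map_add, map_mul, map_neg, map_pow, map_ofNat, hg, hW]
      exact discriminant_equation (hsol _ z.2) (hsol _ z'.2)
    obtain ⟨hUl, hU2⟩ := riccati_leading hA hm hd hR hR0 (hsol _ z.2)
    obtain ⟨hVl, hV2⟩ := riccati_leading hA hm hd hR hR0 (hsol _ z'.2)
    have hvu : V.coeff a = -U.coeff a :=
      (sq_eq_sq_iff_eq_or_eq_neg.1 (hV2.trans hU2.symm)).resolve_left fun h => hne (hinj h)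
    have hW0 : (g W).coeff (a + a) ≠ 0 := by
      have hl : ∀ j < a, (U - V).coeff j = 0 := fun j hj => by
        rw [HahnSeries.coeff_sub, hUl j hj, hVl j hj, sub_zero]
      rw [hW, sq, coeff_mul_add hl hl, HahnSeries.coeff_sub, hvu, sub_neg_eq_add, ← two_mul]
      refine mul_ne_zero ?_ ?_ <;>
      · refine mul_ne_zero two_ne_zero fun h => hR0 ?_
        rw [← hU2, h, zero_pow two_ne_zero]
    have hgW : g W ≠ 0 := fun h => hW0 (by rw [h, HahnSeries.coeff_zero])
    obtain ⟨P, Q, hQ, hPQ, hco⟩ := exists_fraction hCc hx hgen W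
    have htr := transcendental_iff_injective.1 (transcendental_var hCc hx)
    have hQ0 : aeval x Q ≠ 0 := (map_ne_zero_iff _ htr).2 hQ
    have hP1 : 1 ≤ P.natDegree := by
      by_contra hP
      have hgQ : g (aeval x Q) ≠ 0 := (_root_.map_ne_zero g).2 hQ0
      have e : g W * g (aeval x Q) = g (aeval x P) := by
        rw [← map_mul, hPQ, div_mul_cancel₀ _ hQ0]
      have ho1 := HahnSeries.order_le_of_coeff_ne_zero hW0
      have ho2 : (g (aeval x Q)).order ≤ -(Q.natDegree : ℚ) := HahnSeries.order_le_of_coeff_ne_zero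
        (by rw [(hpoly Q).1]; exact (_root_.map_ne_zero _).2 (leadingCoeff_ne_zero.2 hQ))
      have ho3 := congrArg HahnSeries.order e
      rw [HahnSeries.order_mul hgW hgQ, eq_C_of_natDegree_eq_zero (by omega : P.natDegree = 0),
        aeval_C, hC', HahnSeries.order_C] at ho3
      have : (0 : ℚ) ≤ Q.natDegree := Nat.cast_nonneg _
      simp only [a] at ho1
      linarith
    have hB : W′ = aeval x (derivative P * Q - P * derivative Q) / aeval x Q ^ 2 := by
      rw [hPQ, Derivation.leibniz_div, deriv_aeval_var hCc hx, deriv_aeval_var hCc hx,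
        smul_eq_mul, smul_eq_mul, map_sub, map_mul, map_mul]
      field_simp
      simp only [smul_eq_mul]
    obtain ⟨B, hBdef⟩ : ∃ B, B = derivative P * Q - P * derivative Q := ⟨_, rfl⟩
    rw [← hBdef] at hB
    have hB' : W′′ =
        aeval x (derivative B * Q - 2 * B * derivative Q) / aeval x Q ^ 3 := by
      rw [hB, Derivation.leibniz_div, Derivation.leibniz_pow, deriv_aeval_var hCc hx,
        deriv_aeval_var hCc hx]
      simp only [smul_eq_mul, nsmul_eq_mul, Nat.add_one_sub_one, pow_one, Nat.cast_ofNat, map_sub,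
        map_mul, map_ofNat]
      field_simp
    rw [hB', hB, hPQ] at heq
    field_simp at heq
    have hpoly' : -4 * (P * (derivative B * Q - 2 * B * derivative Q)) + 5 * B ^ 2 +
        4 * (P ^ 3 * Q) = 16 * (p * (P ^ 2 * Q ^ 2)) := by
      refine htr ?_
      simp only [map_add, map_sub, map_mul, map_neg, map_pow, map_ofNat] at heq ⊢
      linear_combination heq
    set σ := algebraMap C A
    have hσ : (P.map σ).natDegree = P.natDegree := natDegree_map σ
    obtain ⟨b, hb⟩ := IsAlgClosed.exists_root (P.map σ)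
      (fun h => by rw [natDegree_eq_zero_iff_degree_le_zero.2 h.le] at hσ; omega)
    have hcop := hco.map (Polynomial.mapRingHom σ)
    refine no_zero_of_equation (p := p.map σ) (P := P.map σ) (Q := Q.map σ) (a := b)
      (B := B.map σ) (fun h => by rw [h, natDegree_zero] at hσ; omega) hb ?_
      (by simp [hBdef, derivative_map]) ?_
    · intro hb'
      obtain ⟨u₁, u₂, hu⟩ := hcop
      have := congrArg (Polynomial.eval b) hu
      simp only [coe_mapRingHom, eval_add, eval_mul, hb.eq_zero, hb', mul_zero, add_zero,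
        eval_one] at this
      exact zero_ne_one this
    · have := congrArg (Polynomial.map σ) hpoly'
      simpa [derivative_map] using this

end Fermat.Agent.Liouvillian
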