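import Fermat.Agent.AxSchanuel.Euler
import Mathlib.RingTheory.Derivation.DifferentialRing
import Mathlib.Tactic.LinearCombination

/-!
# Riccati equations in series with rational exponents
-/

set_option autoImplicit false

noncomputable section

open Fermat.Agent.AxSchanuel
open scoped Differential

namespace Fermat.Agent.Liouvillian

/-- A differential structure from an additive map with the Leibniz rule. -/
def differentialOfLeibniz {L : Type*} [Field L] (f : L → L)
    (hadd : ∀ a b, f (a + b) = f a + f b) (hmul : ∀ a b, f (a * b) = a * f b + b * f a) :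
    Differential L :=
  ⟨Derivation.mk' (AddMonoidHom.mk' f hadd).toIntLinearMap fun a b => hmul a b⟩

variable {A : Type*} [Field A]

/-- The product vanishes below the sum of two lower bounds. -/
theorem coeff_mul_eq_zero {u v : HahnSeries ℚ A} {a b k : ℚ} (hu : ∀ j < a, u.coeff j = 0)
    (hv : ∀ j < b, v.coeff j = 0) (hk : k < a + b) : (u * v).coeff k = 0 := by
  rw [HahnSeries.coeff_mul]
  refine Finset.sum_eq_zero fun ij hij => ?_
  obtain ⟨h1, h2, h3⟩ := Finset.mem_addAntidiagonal.1 hij
  have h4 : a ≤ ij.1 := not_lt.1 fun h => h1 (hu _ h)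
  have h5 : b ≤ ij.2 := not_lt.1 fun h => h2 (hv _ h)
  linarith

/-- The coefficient at the sum of two lower bounds. -/
theorem coeff_mul_add {u v : HahnSeries ℚ A} {a b : ℚ} (hu : ∀ j < a, u.coeff j = 0)
    (hv : ∀ j < b, v.coeff j = 0) : (u * v).coeff (a + b) = u.coeff a * v.coeff b := by
  classical
  rw [HahnSeries.coeff_mul, Finset.sum_eq_single (a, b)]
  · intro ij hij hne
    obtain ⟨h1, h2, h3⟩ := Finset.mem_addAntidiagonal.1 hij
    have h4 : a ≤ ij.1 := not_lt.1 fun h => h1 (hu _ h)
    have h5 : b ≤ ij.2 := not_lt.1 fun h => h2 (hv _ h)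
    exact absurd (Prod.ext (by linarith) (by linarith)) hne
  · intro h
    by_contra h0
    exact h (Finset.mem_addAntidiagonal.2
      ⟨left_ne_zero_of_mul h0, right_ne_zero_of_mul h0, rfl⟩)

theorem coeff_eq_zero_of_lt_order {u : HahnSeries ℚ A} {j : ℚ} (hj : j < u.order) :
    u.coeff j = 0 := by
  by_contra h0
  exact (HahnSeries.order_le_of_coeff_ne_zero h0).not_gt hj

theorem coeff_order_ne_zero {u : HahnSeries ℚ A} (hu : u ≠ 0) : u.coeff u.order ≠ 0 := by
  rw [← HahnSeries.leadingCoeff_eq]
  exact HahnSeries.leadingCoeff_ne_zero.2 hu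

/-- The exponent, as an element of the coefficient field. -/
def expoHom (A : Type*) [Field A] [CharZero A] : ℚ →+ A :=
  (Rat.castHom A).toAddMonoidHom

variable [Differential A]

/-- Differentiating the coefficients. -/
def coeffDeriv (u : HahnSeries ℚ A) : HahnSeries ℚ A where
  coeff j := (u.coeff j)′
  isPWO_support' := u.isPWO_support.mono fun j hj h0 =>
    hj (show (u.coeff j)′ = 0 by rw [h0, map_zero])

theorem coeff_coeffDeriv (u : HahnSeries ℚ A) (j : ℚ) : (coeffDeriv u).coeff j = (u.coeff j)′ :=
  rfl

theorem support_coeffDeriv (u : HahnSeries ℚ A) : (coeffDeriv u).support ⊆ u.support :=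
  fun j hj h0 => hj (by rw [coeff_coeffDeriv, h0, map_zero])

theorem coeffDeriv_add (u v : HahnSeries ℚ A) :
    coeffDeriv (u + v) = coeffDeriv u + coeffDeriv v := by
  ext j
  simp only [coeff_coeffDeriv, HahnSeries.coeff_add, map_add]

theorem coeffDeriv_mul (u v : HahnSeries ℚ A) :
    coeffDeriv (u * v) = u * coeffDeriv v + v * coeffDeriv u := by
  ext q
  rw [HahnSeries.coeff_add, mul_comm v, coeff_coeffDeriv,
    HahnSeries.coeff_mul_right' v.isPWO_support (support_coeffDeriv v),
    HahnSeries.coeff_mul_left' u.isPWO_support (support_coeffDeriv u), HahnSeries.coeff_mul,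
    map_sum, ← Finset.sum_add_distrib]
  refine Finset.sum_congr rfl fun ij _ => ?_
  rw [Derivation.leibniz, coeff_coeffDeriv, coeff_coeffDeriv, smul_eq_mul, smul_eq_mul]
  ring

variable [CharZero A]

/-- The derivation with `s' = m s`, where `s` is the variable. -/
def seriesDerivFun (m u : HahnSeries ℚ A) : HahnSeries ℚ A :=
  coeffDeriv u + m * eulerFun (expoHom A) u

/-- The derivation with `s' = m s`, where `s` is the variable. -/
def seriesDifferential (m : HahnSeries ℚ A) : Differential (HahnSeries ℚ A) :=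
  differentialOfLeibniz (seriesDerivFun m)
    (fun a b => by simp only [seriesDerivFun, coeffDeriv_add, eulerFun_add]; ring)
    (fun a b => by simp only [seriesDerivFun, coeffDeriv_mul, eulerFun_mul]; ring)

theorem seriesDerivFun_C (m : HahnSeries ℚ A) (c : A) :
    seriesDerivFun m (HahnSeries.C c) = HahnSeries.C (c′) := by
  rw [seriesDerivFun, eulerFun_C, mul_zero, add_zero]
  ext j
  rw [coeff_coeffDeriv, HahnSeries.C_apply, HahnSeries.C_apply]
  by_cases hj : j = 0
  · simp [hj]
  · simp [hj]

theorem seriesDerivFun_single_one (m : HahnSeries ℚ A) :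
    seriesDerivFun m (HahnSeries.single 1 1) = m * HahnSeries.single 1 1 := by
  have h1 : coeffDeriv (HahnSeries.single (1 : ℚ) (1 : A)) = 0 := by
    ext j
    rw [coeff_coeffDeriv]
    by_cases hj : j = 1
    · simp [hj]
    · simp [hj]
  have h2 : eulerFun (expoHom A) (HahnSeries.single (1 : ℚ) (1 : A)) = HahnSeries.single 1 1 := by
    ext j
    rw [coeff_eulerFun]
    by_cases hj : j = 1
    · simp [hj, expoHom]
    · simp [hj]
  rw [seriesDerivFun, h1, h2, zero_add]

/-- The derivative does not go below the lower bound. -/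
theorem coeff_seriesDerivFun_eq_zero {m u : HahnSeries ℚ A} {a b k : ℚ}
    (hm : ∀ j < b, m.coeff j = 0) (hu : ∀ j < a, u.coeff j = 0) (hk : k < b + a)
    (hk' : (u.coeff k)′ = 0) : (seriesDerivFun m u).coeff k = 0 := by
  rw [seriesDerivFun, HahnSeries.coeff_add, coeff_coeffDeriv, hk', zero_add]
  exact coeff_mul_eq_zero hm (fun j hj => by rw [coeff_eulerFun, hu j hj, mul_zero]) hk

/-- **The constant term of a solution of a Riccati equation is a solution.** -/
theorem riccati_coeff_zero {m U : HahnSeries ℚ A} {r : A} (hm : ∀ j < 0, m.coeff j = 0)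
    (h : seriesDerivFun m U + U ^ 2 = HahnSeries.C r) :
    (U.coeff 0)′ + U.coeff 0 ^ 2 = r := by
  have hlow : ∀ j < 0, U.coeff j = 0 := by
    by_contra hneg
    push Not at hneg
    obtain ⟨j, hj, h0⟩ := hneg
    have hU : U ≠ 0 := fun h1 => h0 (by rw [h1, HahnSeries.coeff_zero])
    have ho : U.order < 0 := (HahnSeries.order_le_of_coeff_ne_zero h0).trans_lt hj
    have h1 := congrArg (fun w : HahnSeries ℚ A => w.coeff (U.order + U.order)) h
    have h2 : U.coeff (U.order + U.order) = 0 := coeff_eq_zero_of_lt_order (by linarith)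
    simp only [HahnSeries.coeff_add, sq,
      coeff_mul_add (fun j => coeff_eq_zero_of_lt_order (j := j))
        (fun j => coeff_eq_zero_of_lt_order (j := j)),
      coeff_seriesDerivFun_eq_zero hm (fun j => coeff_eq_zero_of_lt_order (j := j))
        (by linarith : U.order + U.order < 0 + U.order) (by rw [h2, map_zero]), zero_add,
      HahnSeries.C_apply, HahnSeries.coeff_single,
      if_neg (by linarith : U.order + U.order ≠ 0)] at h1
    exact coeff_order_ne_zero hU (mul_self_eq_zero.1 h1)
  have h1 := congrArg (fun w : HahnSeries ℚ A => w.coeff 0) h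
  have h2 := coeff_mul_add hlow hlow
  have h3 := coeff_mul_add hm (v := eulerFun (expoHom A) U) (b := 0)
    fun j hj => by rw [coeff_eulerFun, hlow j hj, mul_zero]
  rw [add_zero] at h2 h3
  rw [coeff_zero_eulerFun, mul_zero] at h3
  simp only [seriesDerivFun, HahnSeries.coeff_add, sq, h2, h3, coeff_coeffDeriv, add_zero,
    HahnSeries.C_apply, HahnSeries.coeff_single_same] at h1
  rw [sq]
  exact h1

end Fermat.Agent.Liouvillian
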